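/-
P-CFT row 965 GC-FIELD (helper79): interface of the block
`globalCountU_of_field : H54.Cft.Sha2BoundElemStatement → H13.Cft.GlobalCountUStatement`.

For `U ≤ G_ℚ` open in `G_{ℚ,S}` with trivial mod `p` cyclotomic character, `L := ℚ̄^U`:

* `FieldOfUStatement`   [GC-A] : `L` is a number field, unramified outside `S`, `μ_p ⊆ L`,
                                 `G_L = U`, `[G_ℚ : U] = [L : ℚ]`;
* `DegreeLeStatement`   [GC-E] : `[L : ℚ] ≤ 2 · #{infinite places of L}`;
* `PlaceCountStatement` [GC-D] : a system of representatives of the double cosets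
                                 `G_L \ G_ℚ / loc(Γ_q)`, `q ∈ S`, has at most as many elements as
                                 there are primes of `L` over `S`;
* `LocalProdStatement`  [GC-L] : (helper78) the product of the local `# H¹` is
                                 `p ^ (2 · #places + [G_ℚ : U])`;
* `H1DictStatement`     [GC-B] : level homomorphisms `G_L → ZMod p` versus `S`-level characters;
* `Sha2DictStatement`   [GC-C] : cochain dictionary (levels, cocycles, local triviality,
                                 coboundaries).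
-/
import Fermat.Agent.H13.Cft.ULang
import Fermat.Agent.H54.Cft.KummerFinal3
import Fermat.Agent.H54.Cft.N6Interfaces
import Fermat.Agent.H78.CFT.OrbitCount

set_option autoImplicit false

open IsDedekindDomain NumberField ExtCitation

namespace Fermat.Agent.H79.GC

open Fermat.Agent.H13.Cft Fermat.Agent.H78.CFT Fermat.Agent.H97.Shap Fermat.Agent.H54.Cft

/-- **[GC-A]** The fixed field of a `χ`-open subgroup `U` of `G_ℚ`. -/
def FieldOfUStatement : Prop :=
  ∀ (p : ℕ) [Fact p.Prime] (S : Finset Nat.Primes) (U : Subgroup Fermat.Agent.H13.Cft.GQ),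
    IsChiOpen (globalLevelSys S) (cycloChar p) U →
    ∃ L : IntermediateField ℚ (AlgebraicClosure ℚ), FiniteDimensional ℚ L ∧
      L.fixingSubgroup = U ∧ L.IsUnramifiedOutside S ∧
      (∀ ω : AlgebraicClosure ℚ, ω ^ p = 1 → ω ∈ L) ∧ U.index = Module.finrank ℚ L

/-- **[GC-E]** `[L : ℚ] ≤ 2 r`, `r` the number of infinite places. -/
def DegreeLeStatement : Prop :=
  ∀ (L : Type) [Field L] [NumberField L],
    Module.finrank ℚ L ≤ 2 * Fintype.card (InfinitePlace L)

/-- **[GC-D]** The number of places of `U = G_L` over `S` (double cosets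
`G_L \ G_ℚ / loc(Γ_q)`, `q ∈ S`) is at most the number of primes of `L` over `S`. -/
def PlaceCountStatement : Prop :=
  ∀ (S : Finset Nat.Primes) (L : IntermediateField ℚ (AlgebraicClosure ℚ)) [NumberField L]
    (hT : (primesOverS S L).Finite) (R : ↥S → Finset Fermat.Agent.H13.Cft.GQ),
    (∀ q : ↥S, IsMackeyReps (primeLocalToGlobal q.1) L.fixingSubgroup
      (R q : Set Fermat.Agent.H13.Cft.GQ)) →
    ∑ q : ↥S, (R q).card ≤ (primesOverSFinset S L hT).card

/-- **[GC-L]** (helper78) The product of the local `# H¹`. -/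
def LocalProdStatement : Prop :=
  ∀ (p : ℕ) [Fact p.Prime], p ≠ 2 → ∀ (S : Finset Nat.Primes), pPrime p ∈ S →
    ∀ (hχ : ∃ N ∈ (globalLevelSys S).sets, ∀ s ∈ N, cycloChar p s = 1)
      (U : Subgroup Fermat.Agent.H13.Cft.GQ)
      (hU : IsChiOpen (globalLevelSys S) (cycloChar p) U)
      (R : (arithDatumQ p S hχ).ι → Finset Fermat.Agent.H13.Cft.GQ),
      (∀ v, IsPlaceReps (arithDatumQ p S hχ) U v (R v)) →
      (∏ v, ∏ g ∈ R v,
          Nat.card {ψ : mackeySubgroup ((arithDatumQ p S hχ).loc v) U g → ZMod p //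
            IsLvlHom (decLvl (arithDatumQ p S hχ) U hU.1 v g) ψ})
        = p ^ (2 * (∑ v, (R v).card) + U.index)

/-- **[GC-B]** Level homomorphisms of `G_L` versus `S`-level characters: a system `bs` of
representatives of the `S`-level characters counts the level homomorphisms. -/
def H1DictStatement : Prop :=
  ∀ (p : ℕ) [Fact p.Prime] (S : Finset Nat.Primes)
    (L : IntermediateField ℚ (AlgebraicClosure ℚ))
    (hL : ∃ N ∈ (globalLevelSys S).sets, N ≤ L.fixingSubgroup)
    (bs : Finset (Fermat.Agent.H13.Cft.GQ → ZMod p)),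
    (∀ b ∈ bs, IsLevelCharS S L b) →
    (∀ b : Fermat.Agent.H13.Cft.GQ → ZMod p, IsLevelCharS S L b →
      ∃ b' ∈ bs, ∀ τ ∈ L.fixingSubgroup, b τ = b' τ) →
    (∀ b ∈ bs, ∀ b' ∈ bs, (∀ τ ∈ L.fixingSubgroup, b τ = b' τ) → b = b') →
    H1Finite ((globalLevelSys S).restrict L.fixingSubgroup hL) p ∧
    Nat.card {ψ : L.fixingSubgroup → ZMod p //
      IsLvlHom ((globalLevelSys S).restrict L.fixingSubgroup hL) ψ} = bs.card

/-- **[GC-C]** The cochain dictionary for `U = G_L`. -/
def Sha2DictStatement : Prop :=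
  ∀ (p : ℕ) [Fact p.Prime] (S : Finset Nat.Primes)
    (hχ : ∃ N ∈ (globalLevelSys S).sets, ∀ s ∈ N, cycloChar p s = 1)
    (L : IntermediateField ℚ (AlgebraicClosure ℚ))
    (hL : ∃ N ∈ (globalLevelSys S).sets, N ≤ L.fixingSubgroup)
    (c : L.fixingSubgroup × L.fixingSubgroup → ZMod p),
    (IsLvl₂ ((globalLevelSys S).restrict L.fixingSubgroup hL) c → IsSLvl₂ S L c) ∧
    (IsTrivCocycle₂ c → IsCocycle₂ c) ∧
    ((∀ (v : (arithDatumQ p S hχ).ι) (g : Fermat.Agent.H13.Cft.GQ),
        IsLocTriv₂ (arithDatumQ p S hχ) L.fixingSubgroup hL c v g) →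
      ∀ (q : Nat.Primes), q ∈ S → ∀ A : ValuationSubring (AlgebraicClosure ℚ),
        A.LiesOverPrime (q : ℕ) → IsLocTrivAt L A c) ∧
    (∀ r : L.fixingSubgroup × L.fixingSubgroup → ZMod p, IsSCohomologous₂ S L c r →
      IsLvlCoboundary₂ ((globalLevelSys S).restrict L.fixingSubgroup hL) (fun x => c x - r x))

end Fermat.Agent.H79.GC
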