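/-
P-CFT row 965 GC-FIELD (helper79): the assembly
`globalCountU_of_parts` : `[GC-A] [GC-E] [GC-D] [GC-L] [GC-B] [GC-C]` + `Sha2BoundElem`
`⟹ GlobalCountUStatement`.
-/
import Fermat.Agent.H79.GC.Interfaces

set_option autoImplicit false
set_option linter.style.haveILetI false

open IsDedekindDomain NumberField ExtCitation

namespace Fermat.Agent.H79.GC

open Fermat.Agent.H13.Cft Fermat.Agent.H78.CFT Fermat.Agent.H97.Shap Fermat.Agent.H54.Cft

/-- The primes of a number field over a finite set of rational primes are finite in number. -/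
theorem primesOverS_finite (S : Finset Nat.Primes) (K : Type) [Field K] [NumberField K] :
    (primesOverS S K).Finite := by
  have h : primesOverS S K ⊆ ⋃ q ∈ S, {v : HeightOneSpectrum (𝓞 K) |
      v.asIdeal ∣ Ideal.span {(((q : ℕ) : ℕ) : 𝓞 K)}} := by
    rintro v ⟨q, hq, hv⟩
    simp only [Set.mem_iUnion, Set.mem_ofPred_eq, exists_prop]
    refine ⟨q, hq, ?_⟩
    rw [Ideal.dvd_span_singleton]
    exact hv
  refine Set.Finite.subset ?_ h
  refine Set.Finite.biUnion S.finite_toSet fun q _ => ?_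
  apply Ideal.finite_factors
  intro h0
  have h1 : ((q : ℕ) : 𝓞 K) = 0 := Ideal.span_singleton_eq_bot.mp h0
  have h2 : (q : ℕ) = 0 := by exact_mod_cast h1
  exact q.2.ne_zero h2

/-- The arithmetic of the count. -/
theorem gc_arith {p P t n r k κ : ℕ} (hp : 0 < p) (hP : P ≤ t) (hn : n ≤ 2 * r) (hk : k ≤ κ) :
    p ^ (2 * P + n) * k ^ 2 ≤ (p ^ (r + t) * κ) ^ 2 := by
  have h1 : p ^ (2 * P + n) ≤ p ^ (2 * (r + t)) :=
    Nat.pow_le_pow_right hp (by omega)
  have h2 : k ^ 2 ≤ κ ^ 2 := Nat.pow_le_pow_left hk 2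
  calc p ^ (2 * P + n) * k ^ 2 ≤ p ^ (2 * (r + t)) * κ ^ 2 := Nat.mul_le_mul h1 h2
    _ = (p ^ (r + t) * κ) ^ 2 := by rw [mul_pow, ← pow_mul, mul_comm 2]

/-- **[GC-FIELD], assembly.** -/
theorem globalCountU_of_parts (hA : FieldOfUStatement) (hE : DegreeLeStatement)
    (hD : PlaceCountStatement) (hLoc : LocalProdStatement) (hB : H1DictStatement)
    (hC : Sha2DictStatement) (hSha : Sha2BoundElemStatement) : GlobalCountUStatement := by
  intro p _ hp2 S hpS hχ U hU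
  have hp : p.Prime := Fact.out
  obtain ⟨L, hLfin, hLU, hLunr, hLmu, hidx⟩ := hA p S U hU
  subst hLU
  haveI : FiniteDimensional ℚ L := hLfin
  haveI : NumberField L := ⟨⟩
  have hT : (primesOverS S L).Finite := primesOverS_finite S L
  obtain ⟨bs, hbs1, hbs2, hbs3, hbscard⟩ := levelCharCount p S hpS L hLunr hLmu hT
  obtain ⟨hfin, hcard⟩ := hB p S L hU.1 bs hbs1 hbs2 hbs3
  obtain ⟨R', hR'card, hR'⟩ := hSha p hp2 S hpS L hLunr hLmu hT
  refine ⟨hfin, R', ?_, ?_⟩
  · intro c hc1 hc2 hc3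
    obtain ⟨h1, h2, h3, h4⟩ := hC p S hχ L hU.1 c
    obtain ⟨r', hr', hcoh⟩ := hR' c (h2 hc2) (h1 hc1) (h3 hc3)
    exact ⟨r', hr', h4 r' hcoh⟩
  · intro R hR
    rw [hLoc p hp2 S hpS hχ _ hU R hR, hcard, hbscard, hidx]
    exact gc_arith hp.pos (hD S L hT R fun q => hR q) (hE L) hR'card

end Fermat.Agent.H79.GC
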