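/-
P-CFT row 965 GC-FIELD (helper79): adapter between the two shapes of the place count,
`placeCount_of_h54 : H54.Cft.PlaceCountStatement → H76.Cft.PlaceCountStatement`
(per prime `q`, with equality  ⟹  summed over `q ∈ S`, as an inequality).
-/
import Fermat.Agent.H79.GC.Assembly
import Fermat.Agent.H76.Cft.FieldDictInterfaces
import Fermat.Agent.H54.Cft.GCFieldInterfaces

set_option autoImplicit false
set_option linter.style.haveILetI false

open IsDedekindDomain NumberField ExtCitation

namespace Fermat.Agent.H79.GC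

open Fermat.Agent.H13.Cft Fermat.Agent.H78.CFT Fermat.Agent.H97.Shap Fermat.Agent.H54.Cft

/-- A prime of a number field contains at most one rational prime. -/
theorem prime_unique_of_mem {K : Type} [Field K] [NumberField K]
    (w : HeightOneSpectrum (𝓞 K)) {q q' : Nat.Primes}
    (hq : (((q : ℕ) : ℕ) : 𝓞 K) ∈ w.asIdeal) (hq' : (((q' : ℕ) : ℕ) : 𝓞 K) ∈ w.asIdeal) :
    q = q' := by
  by_contra hne
  have hne' : (q : ℕ) ≠ (q' : ℕ) := fun h => hne (Subtype.ext h)
  have hcop : Nat.Coprime (q : ℕ) (q' : ℕ) := (Nat.coprime_primes q.2 q'.2).mpr hne'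
  have hcopZ : IsCoprime ((q : ℕ) : ℤ) ((q' : ℕ) : ℤ) := Nat.isCoprime_iff_coprime.mpr hcop
  obtain ⟨a, b, hab⟩ := hcopZ
  have h1 : ((a * ((q : ℕ) : ℤ) + b * ((q' : ℕ) : ℤ) : ℤ) : 𝓞 K) ∈ w.asIdeal := by
    push_cast
    exact w.asIdeal.add_mem (w.asIdeal.mul_mem_left _ hq) (w.asIdeal.mul_mem_left _ hq')
  rw [hab, Int.cast_one] at h1
  exact w.isPrime.ne_top ((Ideal.eq_top_iff_one _).mpr h1)

/-- The place count, summed over `S`, from the place count at each prime. -/
theorem placeCount_of_h54 (h : Fermat.Agent.H54.Cft.PlaceCountStatement) :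
    Fermat.Agent.H76.Cft.PlaceCountStatement := by
  intro p _ S hχ L _ hT R hR
  classical
  -- the primes over `v`
  let T : ↥S → Finset (HeightOneSpectrum (𝓞 L)) := fun v =>
    (primesOverSFinset S L hT).filter (fun w => (((v.1 : ℕ) : ℕ) : 𝓞 L) ∈ w.asIdeal)
  have hcard : ∀ v : ↥S, (R v).card = (T v).card := by
    intro v
    rw [h L v.1 (R v) ((isPlaceReps_iff p S hχ L.fixingSubgroup v (R v)).mp (hR v))]
    rw [← Nat.card_eq_finsetCard (T v)]
    refine Nat.card_congr (Equiv.subtypeEquivRight fun w => ?_)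
    constructor
    · intro hw
      refine Finset.mem_filter.mpr ⟨?_, hw⟩
      exact (Set.Finite.mem_toFinset hT).mpr ⟨v.1, v.2, hw⟩
    · intro hw
      exact (Finset.mem_filter.mp hw).2
  have hdisj : ∀ v ∈ (Finset.univ : Finset ↥S), ∀ v' ∈ (Finset.univ : Finset ↥S), v ≠ v' →
      Disjoint (T v) (T v') := by
    intro v _ v' _ hvv'
    rw [Finset.disjoint_left]
    intro w hw hw'
    exact hvv' (Subtype.ext (prime_unique_of_mem w (Finset.mem_filter.mp hw).2
      (Finset.mem_filter.mp hw').2))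
  calc ∑ v, (R v).card = ∑ v, (T v).card := Finset.sum_congr rfl fun v _ => hcard v
    _ = ((Finset.univ : Finset ↥S).biUnion T).card := (Finset.card_biUnion hdisj).symm
    _ ≤ (primesOverSFinset S L hT).card := by
      refine Finset.card_le_card ?_
      intro w hw
      obtain ⟨v, -, hv⟩ := Finset.mem_biUnion.mp hw
      exact (Finset.mem_filter.mp hv).1

end Fermat.Agent.H79.GC
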