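import Fermat.Agent.H79.GC.Final
import Fermat.Agent.H79.GC.PlaceAdapter
import Fermat.Agent.H61.Cft.PlaceCount

/-!
# P-CFT row 965 (GC-FIELD): the unconditional dictionary (helper79)

`globalCountU_of_field : Fermat.Agent.H76.Cft.GlobalCountUOfFieldStatement`, i.e.
`Sha2BoundElemStatement → GlobalCountUStatement`, with the place count supplied by
helper61's `Fermat.Agent.H61.GC.placeCount`.
-/

set_option autoImplicit false

namespace Fermat.Agent.H79.GC

/-- The place count in helper76's shape (helper61's theorem through the adapter). -/
theorem placeCountH76 : Fermat.Agent.H76.Cft.PlaceCountStatement :=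
  placeCount_of_h54 Fermat.Agent.H61.GC.placeCount

/-- **[GC-FIELD]**, unconditional: the bound of `Ш²` in field language gives the global count in
U-language. -/
theorem globalCountU_of_field : Fermat.Agent.H76.Cft.GlobalCountUOfFieldStatement :=
  globalCountU_of_placeCount placeCountH76

end Fermat.Agent.H79.GC
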