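/-
P-CFT row 965 GC-FIELD (helper79), parts [GC-A], [GC-E]:
`fieldOfU : FieldOfUStatement`, `degreeLe : DegreeLeStatement`.

The fixed field `L` of a `χ`-open subgroup `U ≤ G_ℚ`: `U` contains the fixing subgroup of a
finite extension, so it is open, hence closed, and `G_L = U` by the infinite Galois
correspondence; `L` is finite over `ℚ`, unramified outside `S`, contains `μ_p`, and
`[G_ℚ : U] = [L : ℚ]`.
-/
import Fermat.Agent.H79.GC.Interfaces
import Fermat.Agent.H21.Cft.BridgeLevels
import Fermat.Agent.H81.Local.B5

set_option autoImplicit false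
set_option linter.style.haveILetI false

open IsDedekindDomain NumberField ExtCitation

namespace Fermat.Agent.H79.GC

open Fermat.Agent.H13.Cft Fermat.Agent.H78.CFT Fermat.Agent.H97.Shap Fermat.Agent.H54.Cft

/-- **[GC-A]** -/
theorem fieldOfU : FieldOfUStatement := by
  intro p _ S U hU
  haveI := Fermat.Agent.H21.Cft.isGalois_qbar_adm
  obtain ⟨⟨N, hN, hNU⟩, hχU⟩ := hU
  obtain ⟨-, -, ⟨F₁, hF₁, hF₁N⟩, hI⟩ := hN
  have hF₁U : F₁.fixingSubgroup ≤ U := hF₁N.trans hNU
  have hopen : IsOpen (U : Set Fermat.Agent.H13.Cft.GQ) :=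
    Subgroup.isOpen_mono hF₁U (IntermediateField.fixingSubgroup_isOpen F₁)
  have hclosed : IsClosed (U : Set Fermat.Agent.H13.Cft.GQ) :=
    Subgroup.isClosed_of_isOpen U hopen
  have hfix : (IntermediateField.fixedField U).fixingSubgroup = U :=
    InfiniteGalois.fixingSubgroup_fixedField ⟨U, hclosed⟩
  have hle : IntermediateField.fixedField U ≤ F₁ := by
    have := IntermediateField.fixedField_antitone hF₁U
    rwa [InfiniteGalois.fixedField_fixingSubgroup] at this
  have hfin : FiniteDimensional ℚ (IntermediateField.fixedField U) :=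
    FiniteDimensional.of_injective (IntermediateField.inclusion hle).toLinearMap
      (IntermediateField.inclusion_injective hle)
  refine ⟨IntermediateField.fixedField U, hfin, hfix, ⟨hfin, ?_⟩, ?_, ?_⟩
  · intro q hq A hA
    rw [hfix]
    exact (hI q hq A hA).trans hNU
  · intro ω hω
    rw [IntermediateField.mem_fixedField_iff]
    intro σ hσ
    exact Fermat.Agent.H81.Local.apply_eq_of_cycloChar_eq_one p (hχU σ hσ) hω
  · have h1 := IntermediateField.finrank_eq_fixingSubgroup_index
      (L := IntermediateField.fixedField U)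
    rw [hfix] at h1
    exact h1.symm

/-- **[GC-E]** -/
theorem degreeLe : DegreeLeStatement := by
  intro L _ _
  have h2 := InfinitePlace.card_add_two_mul_card_eq_rank L
  have h3 := InfinitePlace.card_eq_nrRealPlaces_add_nrComplexPlaces L
  omega

end Fermat.Agent.H79.GC
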