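/-
P-CFT row 965 GC-FIELD (helper79), part [GC-B]: `h1Dict : H1DictStatement`.

Level homomorphisms `G_L → ZMod p` for the induced level system of `G_{ℚ,S}` are the
restrictions of the `S`-level characters of `G_L`; a system of representatives of the latter
modulo equality on `G_L` counts the former.
-/
import Fermat.Agent.H79.GC.Interfaces
import Fermat.Agent.H21.Cft.BridgeLevels

set_option autoImplicit false
set_option linter.style.haveILetI false

open IsDedekindDomain NumberField ExtCitation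

namespace Fermat.Agent.H79.GC

open Fermat.Agent.H13.Cft Fermat.Agent.H78.CFT Fermat.Agent.H97.Shap Fermat.Agent.H54.Cft

section

variable {p : ℕ} (S : Finset Nat.Primes) (L : IntermediateField ℚ (AlgebraicClosure ℚ))
  (hL : ∃ N ∈ (globalLevelSys S).sets, N ≤ L.fixingSubgroup)

/-- Extension by zero of a function on `G_L`. -/
noncomputable def gcExt (ψ : L.fixingSubgroup → ZMod p) :
    Fermat.Agent.H13.Cft.GQ → ZMod p := by
  classical
  exact fun σ => if h : σ ∈ L.fixingSubgroup then ψ ⟨σ, h⟩ else 0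

lemma gcExt_apply (ψ : L.fixingSubgroup → ZMod p) (u : L.fixingSubgroup) :
    gcExt L ψ (u : Fermat.Agent.H13.Cft.GQ) = ψ u := by
  unfold gcExt
  rw [dif_pos u.2]

lemma gcExt_of_mem (ψ : L.fixingSubgroup → ZMod p) {σ : Fermat.Agent.H13.Cft.GQ}
    (h : σ ∈ L.fixingSubgroup) : gcExt L ψ σ = ψ ⟨σ, h⟩ :=
  gcExt_apply L ψ ⟨σ, h⟩

/-- The restriction of an `S`-level character is a level homomorphism. -/
theorem isLvlHom_res {b : Fermat.Agent.H13.Cft.GQ → ZMod p} (hb : IsLevelCharS S L b) :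
    IsLvlHom ((globalLevelSys S).restrict L.fixingSubgroup hL)
      (fun u : L.fixingSubgroup => b (u : Fermat.Agent.H13.Cft.GQ)) := by
  obtain ⟨hadd, F, hF, hFb⟩ := hb
  refine ⟨fun g h => hadd g.1 g.2 h.1 h.2, ?_⟩
  obtain ⟨N₀, hN₀, hN₀U⟩ := hL
  obtain ⟨N₁, hN₁, hN₁F⟩ := Fermat.Agent.H21.Cft.exists_level_le_fixingSubgroup S hF
  obtain ⟨N, hN, hNle⟩ := (globalLevelSys S).directed N₀ hN₀ N₁ hN₁
  have hNU : N ≤ L.fixingSubgroup := (hNle.trans inf_le_left).trans hN₀U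
  refine ⟨N.subgroupOf L.fixingSubgroup, ⟨N, hN, hNU, rfl⟩, fun g n hn => ?_⟩
  have hn' : (n : Fermat.Agent.H13.Cft.GQ) ∈ N := Subgroup.mem_subgroupOf.mp hn
  show b ((g * n : L.fixingSubgroup) : Fermat.Agent.H13.Cft.GQ) = b g
  rw [Subgroup.coe_mul, hadd g.1 g.2 n.1 n.2, hFb n.1 (hN₁F ((hNle.trans inf_le_right) hn')) n.2,
    add_zero]

/-- The extension by zero of a level homomorphism is an `S`-level character. -/
theorem isLevelCharS_ext {ψ : L.fixingSubgroup → ZMod p}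
    (hψ : IsLvlHom ((globalLevelSys S).restrict L.fixingSubgroup hL) ψ) :
    IsLevelCharS S L (gcExt L ψ) := by
  obtain ⟨hadd, N', ⟨N, hN, hNU, rfl⟩, hlvl⟩ := hψ
  refine ⟨fun σ hσ τ hτ => ?_, ?_⟩
  · rw [gcExt_of_mem L ψ hσ, gcExt_of_mem L ψ hτ, gcExt_of_mem L ψ (L.fixingSubgroup.mul_mem hσ hτ)]
    exact hadd ⟨σ, hσ⟩ ⟨τ, hτ⟩
  · obtain ⟨F, hF, hFN⟩ := Fermat.Agent.H21.Cft.exists_unramified_field_of_level S hN
    refine ⟨F, hF, fun s hs hsL => ?_⟩
    rw [gcExt_of_mem L ψ hsL]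
    have h1 : ψ (1 : L.fixingSubgroup) = 0 := by
      have := hadd 1 1
      rw [mul_one] at this
      exact left_eq_add.mp this
    have h2 := hlvl 1 ⟨s, hsL⟩ (Subgroup.mem_subgroupOf.mpr (hFN ▸ hs))
    rw [one_mul] at h2
    rw [h2, h1]

end

/-- **[GC-B]** -/
theorem h1Dict : H1DictStatement := by
  intro p _ S L hL bs hbs1 hbs2 hbs3
  classical
  -- the map to `bs`
  have hex : ∀ ψ : {ψ : L.fixingSubgroup → ZMod p //
      IsLvlHom ((globalLevelSys S).restrict L.fixingSubgroup hL) ψ},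
      ∃ b' ∈ bs, ∀ τ ∈ L.fixingSubgroup, gcExt L ψ.1 τ = b' τ :=
    fun ψ => hbs2 _ (isLevelCharS_ext S L hL ψ.2)
  let f : {ψ : L.fixingSubgroup → ZMod p //
      IsLvlHom ((globalLevelSys S).restrict L.fixingSubgroup hL) ψ} → ↥bs :=
    fun ψ => ⟨(hex ψ).choose, (hex ψ).choose_spec.1⟩
  have hf : ∀ ψ, ∀ u : L.fixingSubgroup, ψ.1 u = (f ψ).1 (u : Fermat.Agent.H13.Cft.GQ) := by
    intro ψ u
    have h1 := (hex ψ).choose_spec.2 u.1 u.2
    rw [gcExt_apply] at h1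
    exact h1
  have hinj : Function.Injective f := by
    intro ψ ψ' h
    apply Subtype.ext
    funext u
    rw [hf ψ u, hf ψ' u, h]
  have hsurj : Function.Surjective f := by
    rintro ⟨b, hb⟩
    refine ⟨⟨fun u => b (u : Fermat.Agent.H13.Cft.GQ), isLvlHom_res S L hL (hbs1 b hb)⟩, ?_⟩
    apply Subtype.ext
    refine hbs3 _ (f _).2 b hb fun τ hτ => ?_
    exact (hf ⟨fun u => b (u : Fermat.Agent.H13.Cft.GQ), isLvlHom_res S L hL (hbs1 b hb)⟩
      ⟨τ, hτ⟩).symm
  have hfinite : Finite {ψ : L.fixingSubgroup → ZMod p //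
      IsLvlHom ((globalLevelSys S).restrict L.fixingSubgroup hL) ψ} :=
    Finite.of_injective f hinj
  refine ⟨@Set.toFinite _ _ hfinite, ?_⟩
  rw [Nat.card_congr (Equiv.ofBijective f ⟨hinj, hsurj⟩), Nat.card_eq_fintype_card,
    Fintype.card_coe]

end Fermat.Agent.H79.GC
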