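/-
P-CFT row 965 GC-FIELD (helper79): the landed pieces plugged into the assembly.

* `h1U : H76.Cft.H1UStatement`                      (from `h1Dict` + helper54 `levelCharCount`);
* `localProdStatement : LocalProdStatement`         (helper78 `localProd`);
* `globalCountU_of_pieces : H76.Cft.PlaceCountStatement → H76.Cft.ShaUStatement →
    GlobalCountUStatement`                          (all other pieces plugged in);
* `globalCountU_of_dict : H76.Cft.PlaceCountStatement → Sha2DictStatement →
    Sha2BoundElemStatement → GlobalCountUStatement`.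
-/
import Fermat.Agent.H79.GC.Assembly
import Fermat.Agent.H79.GC.H1Dict
import Fermat.Agent.H79.GC.FieldOfU
import Fermat.Agent.H76.Cft.FieldDictInterfaces
import Fermat.Agent.H78.CFT.LocalProd

set_option autoImplicit false
set_option linter.style.haveILetI false

open IsDedekindDomain NumberField ExtCitation

namespace Fermat.Agent.H79.GC

open Fermat.Agent.H13.Cft Fermat.Agent.H78.CFT Fermat.Agent.H97.Shap Fermat.Agent.H54.Cft

/-- **[GC-H1-U]** (helper76's shape). -/
theorem h1U : Fermat.Agent.H76.Cft.H1UStatement := by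
  intro p _ S hpS L _ hLunr hLmu hT hU
  obtain ⟨bs, hbs1, hbs2, hbs3, hbscard⟩ := levelCharCount p S hpS L hLunr hLmu hT
  obtain ⟨hfin, hcard⟩ := h1Dict p S L hU bs hbs1 hbs2 hbs3
  exact ⟨hfin, hcard.trans hbscard⟩

/-- **[GC-L]** (helper78). -/
theorem localProdStatement : LocalProdStatement :=
  fun p _ hp2 S hpS hχ U hU R hR => localProd p hp2 S hpS hχ U hU R hR

/-- **[GC-SHA-U]** from the cochain dictionary and the bound in field language. -/
theorem shaU_of_dict (hC : Sha2DictStatement) (hSha : Sha2BoundElemStatement) :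
    Fermat.Agent.H76.Cft.ShaUStatement := by
  intro p _ hp2 S hpS hχ L _ hLunr hLmu hT hU
  obtain ⟨R', hR'card, hR'⟩ := hSha p hp2 S hpS L hLunr hLmu hT
  refine ⟨R', hR'card, fun c hc1 hc2 hc3 => ?_⟩
  obtain ⟨h1, h2, h3, h4⟩ := hC p S hχ L hU c
  obtain ⟨r', hr', hcoh⟩ := hR' c (h2 hc2) (h1 hc1) (h3 hc3)
  exact ⟨r', hr', h4 r' hcoh⟩

/-- **[GC-ASM]** the count in U-language from the place count and `Ш²` in U-language
(helper76's shapes); all other pieces are plugged in. -/
theorem globalCountU_of_pieces (hD : Fermat.Agent.H76.Cft.PlaceCountStatement)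
    (hSha : Fermat.Agent.H76.Cft.ShaUStatement) : GlobalCountUStatement := by
  intro p _ hp2 S hpS hχ U hU
  have hp : p.Prime := Fact.out
  obtain ⟨L, hLfin, hLU, hLunr, hLmu, hidx⟩ := fieldOfU p S U hU
  subst hLU
  haveI : FiniteDimensional ℚ L := hLfin
  haveI : NumberField L := ⟨⟩
  have hT : (primesOverS S L).Finite := primesOverS_finite S L
  obtain ⟨hfin, hcard⟩ := h1U p S hpS L hLunr hLmu hT hU.1
  obtain ⟨Rsha, hRcard, hRsha⟩ := hSha p hp2 S hpS hχ L hLunr hLmu hT hU.1
  refine ⟨hfin, Rsha, hRsha, fun R hR => ?_⟩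
  rw [localProd p hp2 S hpS hχ _ hU R hR, hcard, hidx]
  exact gc_arith hp.pos (hD p S hχ L hT R hR) (degreeLe L) hRcard

/-- The count in U-language from the place count, the cochain dictionary and the bound of
`Ш²` in field language. -/
theorem globalCountU_of_dict (hD : Fermat.Agent.H76.Cft.PlaceCountStatement)
    (hC : Sha2DictStatement) (hSha : Sha2BoundElemStatement) : GlobalCountUStatement :=
  globalCountU_of_pieces hD (shaU_of_dict hC hSha)

end Fermat.Agent.H79.GC
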