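/-
P-CFT row 965 GC-FIELD (helper79): `[GC-FIELD]` from the place count.

`globalCountU_of_placeCount : H76.Cft.PlaceCountStatement → (Sha2BoundElemStatement →
GlobalCountUStatement)`: all other pieces are landed theorems
(helper54 `levelCharCount`, helper78 `localProd`, helper76 `shaUOfField`, helper79 `fieldOfU`,
`h1Dict`, `degreeLe`).
-/
import Fermat.Agent.H79.GC.Pieces
import Fermat.Agent.H76.Cft.FieldDictSha

set_option autoImplicit false

namespace Fermat.Agent.H79.GC

open Fermat.Agent.H13.Cft Fermat.Agent.H54.Cft

/-- **[GC-FIELD]** modulo the place count. -/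
theorem globalCountU_of_placeCount (hD : Fermat.Agent.H76.Cft.PlaceCountStatement) :
    Fermat.Agent.H76.Cft.GlobalCountUOfFieldStatement :=
  fun hSha => globalCountU_of_pieces hD (Fermat.Agent.H76.Cft.shaUOfField hSha)

end Fermat.Agent.H79.GC
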