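import Fermat.Agent.H79.GC.Uncond
import Fermat.Agent.H54.Cft.Sha2Final

/-!
# P-CFT `[GC-U]`: the global count in U-language, unconditional (helper79)

`globalCountU : Fermat.Agent.H13.Cft.GlobalCountUStatement`, from `globalCountU_of_field`
(row 965) and helper54's `sha2BoundElem`.
-/

set_option autoImplicit false

namespace Fermat.Agent.H79.GC

/-- **[GC-U]**, unconditional. -/
theorem globalCountU : Fermat.Agent.H13.Cft.GlobalCountUStatement :=
  globalCountU_of_field Fermat.Agent.H54.Cft.sha2BoundElem

end Fermat.Agent.H79.GC
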